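/-
S44, node X, block COVER, sub-block Y3 = DESCENT + TR (sub-architect helper44).  DEFINITIONS.

Step (Y3) of report #1153, WITHOUT any cohomology (no Hilbert 90, no Kummer theory): everything is
done with normalised `p`-th roots in `ℚ̄((q))` (series `1 + O(q)`, `BAD.Descent.IsOne`).

* `U₁ ∈ FN L` : the second Kummer unit, `τ U₁ = U₁ U ^ i g ^ p` for `τ ∈ I`;
* averaging the normalised roots of `τ U₁ / U₁` (they lie in `F̄_Y`) over the finite orbit of `U₁`
  gives a one-unit `b ∈ F̄_Y` with `U₁ b ^ p` fixed by `I`, i.e. `U₁ b ^ p = u ∈ F_Y`;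
* `σ u / u = (γ b / b) ^ p`; `α := lc (γ b / b)`, `a := α ^ p = lc (σ u / u) ∈ K`; the normalised
  series `(γ b / b) / α` is fixed by `I` (uniqueness of normalised roots), so it is `β ∈ F_Y`:
  `σ u = a u β ^ p`;
* `τ α = α` as soon as `τ U₁ / U₁` is a `p`-th power in `FN L` (because `γ` commutes with `I`).
-/
import Fermat.Agent.S44.X.Cover.Defs
import Fermat.Agent.BAD.Descent

set_option autoImplicit false

noncomputable section

namespace Fermat.Agent.S44.X.Cover.Y3

open ModularCurve AlgebraicCurve Fermat.Agent.S24 Fermat.Agent.GAL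
open Fermat.Agent.BAD.Bridge

/-- The deck transformation `γ` of `F̄_Y / F̄_X` commutes with the coefficientwise action of `I`
(and `F̄_Y` is stable under `I`). -/
def GalComm (I : Subgroup S44.GQ) {L : ℕ} {W : LaurentSeries Kbar}
    (γ : FYb L W ≃ₐ[FN L] FYb L W) : Prop :=
  ∀ τ ∈ I, ∀ x : FYb L W, ∃ y : FYb L W,
    (y : LaurentSeries Kbar) = gS τ (x : LaurentSeries Kbar) ∧
      ((γ y : FYb L W) : LaurentSeries Kbar) = gS τ ((γ x : FYb L W) : LaurentSeries Kbar)

/-- The Galois hypothesis on the second unit: `I` acts trivially on `[U₁]` modulo `[U]`. -/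
def Gal₁ (I : Subgroup S44.GQ) (p L : ℕ) (U U₁ : FN L) : Prop :=
  ∀ τ ∈ I, ∃ (i : ℕ) (g : FN L), E.galF L τ U₁ = U₁ * U ^ i * g ^ p

end Fermat.Agent.S44.X.Cover.Y3

end
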