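/-
S44 / X / COVER / Y3 (helper44), leaf Y3-A: elementary facts on `ℚ̄((q))`, `K((q))`.
-/
import Fermat.Agent.S44.X.Cover.Y3.Defs

set_option autoImplicit false
set_option linter.unusedSectionVars false

noncomputable section

namespace Fermat.Agent.S44.X.Cover.Y3

open ModularCurve AlgebraicCurve Fermat.Agent.S24 Fermat.Agent.GAL
open Fermat.Agent.BAD.Bridge Fermat.Agent.BAD.Descent

/-- the leading coefficient commutes with an injective change of coefficients. -/
private theorem y3_leadingCoeff_coeffMap {R S : Type*} [CommRing R] [CommRing S] (f : R →+* S)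
    (hf : Function.Injective f) (x : LaurentSeries R) :
    (coeffMap f x).leadingCoeff = f x.leadingCoeff := by
  by_cases hx : x = 0
  · subst hx
    simp
  have hx' : coeffMap f x ≠ 0 := fun h =>
    hx (S18.Descent.coeffMap_injective f hf (by rw [h, map_zero]))
  have h1 : x.coeff x.order ≠ 0 := by
    rw [← HahnSeries.leadingCoeff_eq]
    exact HahnSeries.leadingCoeff_ne_zero.2 hx
  have h2 : (coeffMap f x).coeff (coeffMap f x).order ≠ 0 := by
    rw [← HahnSeries.leadingCoeff_eq]
    exact HahnSeries.leadingCoeff_ne_zero.2 hx'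
  have h3 : (coeffMap f x).order = x.order := by
    apply le_antisymm
    · apply HahnSeries.order_le_of_coeff_ne_zero
      rw [coeffMap_coeff]
      exact fun h => h1 (hf (by rw [h, map_zero]))
    · apply HahnSeries.order_le_of_coeff_ne_zero
      intro h
      apply h2
      rw [coeffMap_coeff, h, map_zero]
  rw [HahnSeries.leadingCoeff_eq, HahnSeries.leadingCoeff_eq, h3, coeffMap_coeff]

/-- Uniqueness of `n`-th roots with leading coefficient one. -/
theorem eq_of_pow_eq_of_lc {y z : LaurentSeries Kbar} {n : ℕ} (hn : 0 < n)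
    (hy : y.leadingCoeff = 1) (hz : z.leadingCoeff = 1) (h : y ^ n = z ^ n) : y = z := by
  have hz0 : z ≠ 0 := by
    rintro rfl
    rw [HahnSeries.leadingCoeff_zero] at hz
    exact zero_ne_one hz
  set t : LaurentSeries Kbar := y * z⁻¹ with ht
  have htz : t * z = y := by rw [ht, mul_assoc, inv_mul_cancel₀ hz0, mul_one]
  have htn : t ^ n = 1 := by
    rw [ht, mul_pow, h, inv_pow, mul_inv_cancel₀ (pow_ne_zero n hz0)]
  have hlt : t.leadingCoeff = 1 := by
    have := HahnSeries.leadingCoeff_mul t z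
    rw [htz, hy, hz, mul_one] at this
    exact this.symm
  have h1 : t ^ n * 1 = 1 := by rw [mul_one, htn]
  have h2 := (orderTop_eq_zero_of_pow_mul hn isOne_one isOne_one h1).1
  have h3 : IsOne t := (isOne_iff _).2 ⟨h2, hlt⟩
  have h4 : t = 1 := h3.eq_of_pow_eq isOne_one hn (by rw [one_pow, htn])
  rw [← htz, h4, one_mul]

theorem leadingCoeff_gS (τ : S44.GQ) (x : LaurentSeries Kbar) :
    (gS τ x).leadingCoeff = τ x.leadingCoeff :=
  y3_leadingCoeff_coeffMap (τ : Kbar →+* Kbar) (τ : Kbar →+* Kbar).injective x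

/-- Normalisation of a root of `τ a / a`. -/
theorem exists_const_isOne {p : ℕ} (hp : 0 < p) {a h : LaurentSeries Kbar}
    (ha : a.leadingCoeff = 1) (τ : S44.GQ) (hh : h ^ p * a = gS τ a) :
    ∃ c : Kbar, c ^ p = 1 ∧ IsOne (algebraMap Kbar (LaurentSeries Kbar) c * h) := by
  obtain ⟨m, e, he, hae⟩ := exists_single_mul_isOne ha
  have hσ1 : (τ : Kbar →+* Kbar) 1 = 1 := map_one _
  have h1 := hh
  rw [hae, map_mul, coeffMap_single, hσ1, mul_left_comm] at h1
  have hs : (HahnSeries.single m (1 : Kbar) : LaurentSeries Kbar) ≠ 0 :=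
    HahnSeries.single_ne_zero one_ne_zero
  have h2 := mul_left_cancel₀ hs h1
  obtain ⟨h3, h4⟩ := orderTop_eq_zero_of_pow_mul hp he (he.coeffMap _) h2
  have hc : h.leadingCoeff ≠ 0 := by
    intro h0
    rw [h0, zero_pow hp.ne'] at h4
    exact zero_ne_one h4
  refine ⟨h.leadingCoeff⁻¹, by rw [inv_pow, h4, inv_one], ?_⟩
  rw [isOne_iff, algebraMap_laurentSeries_eq_single, HahnSeries.orderTop_mul,
    HahnSeries.leadingCoeff_mul, h3, HahnSeries.orderTop_single (inv_ne_zero hc),
    HahnSeries.leadingCoeff_of_single, inv_mul_cancel₀ hc]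
  simp

section K

variable (K : Type) [Field K] [Algebra ℚ K] [Algebra K Kbar]

theorem cK_injective : Function.Injective (cK K) :=
  S18.Descent.coeffMap_injective _ (algebraMap K Kbar).injective

theorem leadingCoeff_cK (z : LaurentSeries K) :
    (cK K z).leadingCoeff = algebraMap K Kbar z.leadingCoeff :=
  y3_leadingCoeff_coeffMap (algebraMap K Kbar) (algebraMap K Kbar).injective z

variable {K}

theorem gS_cK {I : Subgroup S44.GQ} (hfix : IsFix K I) {τ : S44.GQ} (hτ : τ ∈ I)
    (z : LaurentSeries K) : gS τ (cK K z) = cK K z := by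
  ext k
  rw [coeffMap_coeff, coeffMap_coeff]
  exact (hfix _).2 ⟨_, rfl⟩ τ hτ

/-- A series fixed by `I` has its coefficients in `K`. -/
theorem exists_cK_of_fixed {I : Subgroup S44.GQ} (hfix : IsFix K I) (x : LaurentSeries Kbar)
    (hx : ∀ τ ∈ I, gS τ x = x) : ∃ z : LaurentSeries K, cK K z = x := by
  have h : ∀ n, ∃ c : K, algebraMap K Kbar c = x.coeff n := by
    intro n
    have h1 : x.coeff n ∈ (algebraMap K Kbar).range := (hfix _).1 fun τ hτ => by
      have h2 := congrArg (fun y => HahnSeries.coeff y n) (hx τ hτ)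
      exact h2
    exact h1
  choose c hc using h
  refine ⟨⟨c, x.isPWO_support.mono fun n hn => ?_⟩, ?_⟩
  · simp only [Function.mem_support, ne_eq] at hn ⊢
    intro h0
    apply hn
    apply (algebraMap K Kbar).injective
    rw [hc, h0, map_zero]
  · ext n
    rw [coeffMap_coeff]
    exact hc n

/-- An element of `F̄_Y` fixed by `I` comes from `F_Y`. -/
theorem exists_bcY_of_fixed {I : Subgroup S44.GQ} (hfix : IsFix K I) {L : ℕ}
    {W : LaurentSeries Kbar} (x : FYb L W)
    (hx : ∀ τ ∈ I, gS τ (x : LaurentSeries Kbar) = x) : ∃ z : FY K L W, bcY K L W z = x := by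
  obtain ⟨z, hz⟩ := exists_cK_of_fixed hfix (x : LaurentSeries Kbar) hx
  exact ⟨⟨z, (mem_FY_iff K L W z).2 (hz ▸ x.2)⟩, Subtype.ext hz⟩

end K

end Fermat.Agent.S44.X.Cover.Y3

end
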