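/-
S44 / X / COVER / Y3 (helper44), leaf Y3-F: the deck transformation `γ : W ↦ ζ W` commutes with the
coefficientwise action of `I` on `F̄_Y`.
-/
import Fermat.Agent.S44.X.Cover.Y3.Series
import Fermat.Agent.S44.X.Cover.Hor.Repr

set_option autoImplicit false

noncomputable section

namespace Fermat.Agent.S44.X.Cover.Y3

open ModularCurve AlgebraicCurve Fermat.Agent.S24 Fermat.Agent.GAL
open Fermat.Agent.BAD.Bridge Fermat.Agent.BAD.Descent

/-- The cyclotomic character. -/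
theorem exists_cyc (p : ℕ) (hp : 0 < p) (τ : S44.GQ) :
    ∃ m : ℕ, ∀ ζ : Kbar, ζ ^ p = 1 → τ ζ = ζ ^ m := by
  have : NeZero p := ⟨hp.ne'⟩
  obtain ⟨ζ₀, hζ₀⟩ := HasEnoughRootsOfUnity.exists_primitiveRoot Kbar p
  have h1 : (τ ζ₀) ^ p = 1 := by rw [← map_pow, hζ₀.pow_eq_one, map_one]
  obtain ⟨m, -, hm⟩ := hζ₀.eq_pow_of_pow_eq_one h1
  refine ⟨m, fun ζ hζ => ?_⟩
  obtain ⟨k, -, rfl⟩ := hζ₀.eq_pow_of_pow_eq_one hζ
  rw [map_pow, ← hm, ← pow_mul, ← pow_mul, mul_comm]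

/-- `τ W = W ^ m h` with `h ∈ FN L`. -/
theorem gS_W {I : Subgroup S44.GQ} {p L : ℕ} {U : FN L} {W : LaurentSeries Kbar} (hp : 0 < p)
    (hR : RootData I p L U W) {τ : S44.GQ} (hτ : τ ∈ I) {m : ℕ}
    (hm : ∀ ζ : Kbar, ζ ^ p = 1 → τ ζ = ζ ^ m) :
    ∃ h : FN L, gS τ W = W ^ m * (h : LaurentSeries Kbar) := by
  obtain ⟨h, hh⟩ := hR.gal τ hτ m hm
  -- the `p`-th powers agree
  have h1 : (gS τ W) ^ p = (W ^ m * (h : LaurentSeries Kbar)) ^ p := by
    have h2 : ((E.galF L τ U : FN L) : LaurentSeries Kbar) =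
        (U : LaurentSeries Kbar) ^ m * (h : LaurentSeries Kbar) ^ p := by
      rw [hh, MulMemClass.coe_mul, SubmonoidClass.coe_pow, SubmonoidClass.coe_pow]
    rw [E.coe_galF] at h2
    rw [← map_pow, hR.pow, h2, ← hR.pow, mul_pow, ← pow_mul, ← pow_mul, mul_comm p m]
  have hl1 : (gS τ W).leadingCoeff = 1 := by rw [leadingCoeff_gS, hR.nrm, map_one]
  have hl2 : (h : LaurentSeries Kbar).leadingCoeff ^ p = 1 := by
    have h3 := congrArg HahnSeries.leadingCoeff h1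
    rw [leadingCoeff_pow', leadingCoeff_pow', hl1, one_pow, HahnSeries.leadingCoeff_mul,
      leadingCoeff_pow', hR.nrm, one_pow, one_mul] at h3
    exact h3.symm
  have hl0 : (h : LaurentSeries Kbar).leadingCoeff ≠ 0 := by
    intro h0
    rw [h0, zero_pow hp.ne'] at hl2
    exact zero_ne_one hl2
  refine ⟨h * algebraMap Kbar (FN L) ((h : LaurentSeries Kbar).leadingCoeff)⁻¹, ?_⟩
  rw [MulMemClass.coe_mul, BAD.Descent.coe_algebraMap]
  refine Y3.eq_of_pow_eq_of_lc hp hl1 ?_ ?_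
  · rw [HahnSeries.leadingCoeff_mul, HahnSeries.leadingCoeff_mul, leadingCoeff_pow', hR.nrm,
      one_pow, one_mul, HahnSeries.leadingCoeff_of_single, mul_inv_cancel₀ hl0]
  · rw [h1, ← mul_assoc, mul_pow (W ^ m * (h : LaurentSeries Kbar)), HahnSeries.single_pow,
      inv_pow, hl2, inv_one, smul_zero]
    exact (mul_one _).symm

theorem galComm {I : Subgroup S44.GQ} {p L : ℕ} {U : FN L} {W : LaurentSeries Kbar} (hp : 0 < p)
    (hR : RootData I p L U W) {ζ : Kbar} (hζ : ζ ^ p = 1) (γ : FYb L W ≃ₐ[FN L] FYb L W)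
    (hγ : γ (Wel L W) = algebraMap Kbar (FYb L W) ζ * Wel L W) : GalComm I γ := by
  intro τ hτ x
  obtain ⟨m, hm⟩ := exists_cyc p hp τ
  obtain ⟨h, hh⟩ := gS_W hp hR hτ hm
  obtain ⟨c, rfl⟩ := Hor.exists_repr L p hp.ne' U W hR.pow x
  have hγι : ∀ f : FN L, γ (Hor.ιb L W f) = Hor.ιb L W f := fun f => by
    have h1 := γ.commutes f
    rwa [algebraMap_FYb_eq] at h1
  have hγW : γ (Hor.Wb L W) = algebraMap Kbar (FYb L W) ζ * Hor.Wb L W := hγ
  have hZ : ((algebraMap Kbar (FYb L W) ζ : FYb L W) : LaurentSeries Kbar) =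
      algebraMap Kbar (LaurentSeries Kbar) ζ := (FYb L W).val.commutes ζ
  have hτZ : gS τ (algebraMap Kbar (LaurentSeries Kbar) ζ) =
      algebraMap Kbar (LaurentSeries Kbar) ζ ^ m := by
    rw [S18.Descent.coeffMap_algebraMap', ← map_pow]
    exact congrArg _ (hm ζ hζ)
  refine ⟨∑ i ∈ Finset.range p, Hor.ιb L W (E.galF L τ (c i)) *
    (Hor.Wb L W ^ m * Hor.ιb L W h) ^ i, ?_, ?_⟩
  · rw [AddSubmonoidClass.coe_finsetSum, AddSubmonoidClass.coe_finsetSum, map_sum]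
    refine Finset.sum_congr rfl fun i _ => ?_
    rw [MulMemClass.coe_mul, SubmonoidClass.coe_pow, MulMemClass.coe_mul, SubmonoidClass.coe_pow,
      Hor.coe_ιb, Hor.coe_ιb, Hor.coe_Wb, E.coe_galF, MulMemClass.coe_mul, SubmonoidClass.coe_pow,
      Hor.coe_ιb, Hor.coe_Wb, map_mul, map_pow, hh]
  · rw [map_sum, map_sum, AddSubmonoidClass.coe_finsetSum, AddSubmonoidClass.coe_finsetSum,
      map_sum]
    refine Finset.sum_congr rfl fun i _ => ?_
    rw [map_mul, map_pow, map_mul, map_pow, hγι, hγι, hγW, map_mul, map_pow, hγι, hγW,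
      MulMemClass.coe_mul, SubmonoidClass.coe_pow, MulMemClass.coe_mul, SubmonoidClass.coe_pow,
      MulMemClass.coe_mul, Hor.coe_ιb, Hor.coe_ιb, Hor.coe_Wb, hZ, E.coe_galF,
      MulMemClass.coe_mul, SubmonoidClass.coe_pow, MulMemClass.coe_mul, Hor.coe_ιb, Hor.coe_Wb,
      hZ, map_mul, map_pow, map_mul, hτZ, hh, mul_pow (algebraMap Kbar (LaurentSeries Kbar) ζ) W m,
      mul_assoc (algebraMap Kbar (LaurentSeries Kbar) ζ ^ m)]

end Fermat.Agent.S44.X.Cover.Y3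

end
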