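/-
S44 / X / COVER / Y3 (helper44), leaf Y3-E: the action of `I` on `α = lc (γ b / b)`.
-/
import Fermat.Agent.S44.X.Cover.Y3.Series

set_option autoImplicit false

noncomputable section

namespace Fermat.Agent.S44.X.Cover.Y3

open ModularCurve AlgebraicCurve Fermat.Agent.S24 Fermat.Agent.GAL
open Fermat.Agent.BAD.Bridge Fermat.Agent.BAD.Descent

theorem alpha_fixed {I : Subgroup S44.GQ} {L : ℕ} {W : LaurentSeries Kbar}
    {γ : FYb L W ≃ₐ[FN L] FYb L W} (hC : GalComm I γ) (b : FYb L W)
    (hb : IsOne (b : LaurentSeries Kbar)) {τ : S44.GQ} (hτ : τ ∈ I) (h : FN L)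
    (hh : IsOne (h : LaurentSeries Kbar))
    (hbh : gS τ (b : LaurentSeries Kbar) * (h : LaurentSeries Kbar) = b) :
    τ (((γ b / b : FYb L W) : LaurentSeries Kbar).leadingCoeff) =
      ((γ b / b : FYb L W) : LaurentSeries Kbar).leadingCoeff := by
  obtain ⟨y, hy1, hy2⟩ := hC τ hτ b
  have hyb : y * algebraMap (FN L) (FYb L W) h = b := by
    apply Subtype.ext
    show (y : LaurentSeries Kbar) *
      ((algebraMap (FN L) (FYb L W) h : FYb L W) : LaurentSeries Kbar) = b
    rw [coe_algebraMap_FYb, hy1, hbh]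
  have hγ : γ y * algebraMap (FN L) (FYb L W) h = γ b := by
    have h1 := congrArg γ hyb
    rwa [map_mul, γ.commutes] at h1
  have hs : gS τ ((γ b : FYb L W) : LaurentSeries Kbar) * (h : LaurentSeries Kbar) =
      ((γ b : FYb L W) : LaurentSeries Kbar) := by
    have h1 : ((γ y : FYb L W) : LaurentSeries Kbar) *
        ((algebraMap (FN L) (FYb L W) h : FYb L W) : LaurentSeries Kbar) =
        ((γ b : FYb L W) : LaurentSeries Kbar) :=
      congrArg (fun z : FYb L W => (z : LaurentSeries Kbar)) hγ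
    rwa [coe_algebraMap_FYb, hy2] at h1
  have hlc : τ (((γ b : FYb L W) : LaurentSeries Kbar).leadingCoeff) =
      ((γ b : FYb L W) : LaurentSeries Kbar).leadingCoeff := by
    have h1 := congrArg HahnSeries.leadingCoeff hs
    rwa [HahnSeries.leadingCoeff_mul, leadingCoeff_gS, ((isOne_iff _).1 hh).2, mul_one] at h1
  have hdiv : ((γ b / b : FYb L W) : LaurentSeries Kbar).leadingCoeff =
      ((γ b : FYb L W) : LaurentSeries Kbar).leadingCoeff := by
    have hb0 : b ≠ 0 := fun h0 => hb.ne_zero (by rw [h0]; rfl)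
    have e : (γ b / b) * b = γ b := div_mul_cancel₀ _ hb0
    have h1 : ((γ b / b : FYb L W) : LaurentSeries Kbar) * (b : LaurentSeries Kbar) =
        ((γ b : FYb L W) : LaurentSeries Kbar) :=
      congrArg (fun z : FYb L W => (z : LaurentSeries Kbar)) e
    have h2 := congrArg HahnSeries.leadingCoeff h1
    rwa [HahnSeries.leadingCoeff_mul, ((isOne_iff _).1 hb).2, mul_one] at h2
  rw [hdiv, hlc]

end Fermat.Agent.S44.X.Cover.Y3

end
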