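/-
S44 / X / COVER / Y3 (helper44), leaf Y3-B: averaging the normalised roots over a finite orbit
(generalisation of `BAD.Descent.exists_fixed_mul_pow`: the roots are allowed to lie in a bigger
field `F`, which need not be stable under `I`).
-/
import Fermat.Agent.S44.X.Cover.Y3.Defs

set_option autoImplicit false

noncomputable section

namespace Fermat.Agent.S44.X.Cover.Y3

open ModularCurve AlgebraicCurve Fermat.Agent.S24 Fermat.Agent.GAL
open Fermat.Agent.BAD.Bridge Fermat.Agent.BAD.Descent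

private theorem y3_gS_mul (σ τ : S44.GQ) (x : LaurentSeries Kbar) :
    gS (σ * τ) x = gS σ (gS τ x) := by
  ext k
  rfl

private theorem y3_gS_one (x : LaurentSeries Kbar) : gS 1 x = x := by
  ext k
  rfl

theorem exists_avg {p : ℕ} (hp : 0 < p) (I : Subgroup S44.GQ)
    (F : IntermediateField Kbar (LaurentSeries Kbar)) {a : LaurentSeries Kbar} (ha : a ≠ 0)
    (hfin : {v : LaurentSeries Kbar | ∃ τ ∈ I, gS τ a = v}.Finite)
    (hroot : ∀ τ ∈ I, ∃ h ∈ F, IsOne h ∧ h ^ p * a = gS τ a) :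
    ∃ g ∈ F, IsOne g ∧ ∀ τ ∈ I, ∀ h : LaurentSeries Kbar, IsOne h → h ^ p * a = gS τ a →
      gS τ g * h = g := by
  classical
  set O : Set (LaurentSeries Kbar) := {v : LaurentSeries Kbar | ∃ τ ∈ I, gS τ a = v} with hO
  have hex : ∀ v : LaurentSeries Kbar, ∃ h : LaurentSeries Kbar,
      v ∈ O → (h ∈ F ∧ IsOne h ∧ h ^ p * a = v) := by
    intro v
    by_cases hv : v ∈ O
    · obtain ⟨σ, hσ, rfl⟩ := hv
      obtain ⟨h, h0, h1, h2⟩ := hroot σ hσ
      exact ⟨h, fun _ => ⟨h0, h1, h2⟩⟩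
    · exact ⟨1, fun h => absurd h hv⟩
  choose hh hhh using hex
  set S : Finset (LaurentSeries Kbar) := hfin.toFinset with hS
  have hmemS : ∀ v, v ∈ S ↔ v ∈ O := fun v => hfin.mem_toFinset
  have haO : a ∈ O := ⟨1, I.one_mem, y3_gS_one a⟩
  have hσO : ∀ σ ∈ I, ∀ v ∈ O, gS σ v ∈ O := by
    rintro σ hσ _ ⟨τ, hτ, rfl⟩
    exact ⟨σ * τ, I.mul_mem hσ hτ, y3_gS_mul σ τ a⟩
  -- the cocycle relation
  have hcoc : ∀ σ ∈ I, ∀ h : LaurentSeries Kbar, IsOne h → h ^ p * a = gS σ a →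
      ∀ v ∈ O, gS σ (hh v) * h = hh (gS σ v) := by
    intro σ hσ h hone hpow v hv
    have h1 := hhh v hv
    have h3 := hhh _ (hσO σ hσ v hv)
    have hone' : IsOne (gS σ (hh v) * h) := (h1.2.1.coeffMap _).mul hone
    refine hone'.eq_of_pow_eq h3.2.1 hp ?_
    apply mul_right_cancel₀ ha
    rw [h3.2.2, mul_pow, mul_assoc, hpow, ← map_pow, ← map_mul, h1.2.2]
  set g₀ : LaurentSeries Kbar := ∑ v ∈ S, hh v with hg₀
  have hg₀F : g₀ ∈ F := sum_mem fun v hv => (hhh v ((hmemS v).1 hv)).1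
  have hsum : ∀ σ ∈ I, ∀ h : LaurentSeries Kbar, IsOne h → h ^ p * a = gS σ a →
      gS σ g₀ * h = g₀ := by
    intro σ hσ h hone hpow
    rw [hg₀, map_sum, Finset.sum_mul]
    have hinv : σ⁻¹ ∈ I := I.inv_mem hσ
    refine Finset.sum_nbij' (fun v => gS σ v) (fun v => gS σ⁻¹ v) ?_ ?_ ?_ ?_ ?_
    · intro v hv
      exact (hmemS _).2 (hσO σ hσ v ((hmemS v).1 hv))
    · intro v hv
      exact (hmemS _).2 (hσO _ hinv v ((hmemS v).1 hv))
    · intro v _
      rw [← y3_gS_mul, inv_mul_cancel, y3_gS_one]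
    · intro v _
      rw [← y3_gS_mul, mul_inv_cancel, y3_gS_one]
    · intro v hv
      exact hcoc σ hσ h hone hpow v ((hmemS v).1 hv)
  have hcard : (S.card : Kbar) ≠ 0 := by
    rw [Nat.cast_ne_zero]
    exact Finset.card_ne_zero_of_mem ((hmemS a).2 haO)
  have hco := coeff_zero_sum S (fun v => hh v) (fun v hv => (hhh v ((hmemS v).1 hv)).2.1)
  set κ : LaurentSeries Kbar := algebraMap Kbar (LaurentSeries Kbar) ((S.card : Kbar))⁻¹ with hκ
  have hκs : κ = HahnSeries.single 0 ((S.card : Kbar))⁻¹ := by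
    rw [hκ, algebraMap_laurentSeries_eq_single]
  have hκfix : ∀ σ : S44.GQ, gS σ κ = κ := by
    intro σ
    rw [hκs, coeffMap_single]
    congr 1
    change σ ((S.card : Kbar))⁻¹ = _
    rw [map_inv₀, map_natCast]
  refine ⟨g₀ * κ, mul_mem hg₀F (F.algebraMap_mem _), ?_, ?_⟩
  · rw [hκs]
    refine ⟨?_, fun k hk => ?_⟩
    · rw [HahnSeries.coeff_mul_single_zero, hco.1, mul_inv_cancel₀ hcard]
    · rw [HahnSeries.coeff_mul_single_zero, hco.2 k hk, zero_mul]
  · intro σ hσ h hone hpow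
    rw [map_mul, hκfix, mul_right_comm, hsum σ hσ h hone hpow]

end Fermat.Agent.S44.X.Cover.Y3

end
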