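/-
S44 / X / COVER / Y3 (helper44), leaf Y3-D: `σ u = a u β ^ p` with `a = α ^ p`, `α = lc (γ b / b)`.
-/
import Fermat.Agent.S44.X.Cover.Y3.Series

set_option autoImplicit false

noncomputable section

namespace Fermat.Agent.S44.X.Cover.Y3

open ModularCurve AlgebraicCurve Fermat.Agent.S24 Fermat.Agent.GAL
open Fermat.Agent.BAD.Bridge Fermat.Agent.BAD.Descent

variable {K : Type} [Field K] [Algebra ℚ K] [Algebra K Kbar]

private theorem y3_bcY_const (L : ℕ) (W : LaurentSeries Kbar) (c : K) :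
    bcY K L W (algebraMap K (FY K L W) c) = algebraMap Kbar (FYb L W) (algebraMap K Kbar c) := by
  apply Subtype.ext
  exact S18.Descent.coeffMap_algebraMap' _ c

private theorem y3_leadingCoeff_const (c : Kbar) :
    (algebraMap Kbar (LaurentSeries Kbar) c).leadingCoeff = c := by
  rw [algebraMap_laurentSeries_eq_single]
  exact HahnSeries.leadingCoeff_of_single

theorem exists_beta {I : Subgroup S44.GQ} (hfix : IsFix K I) {p L : ℕ} (hp : 0 < p)
    {W : LaurentSeries Kbar} {ζ : Kbar} {σ : FY K L W ≃ₐ[FK K L] FY K L W}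
    {γ : FYb L W ≃ₐ[FN L] FYb L W} (hD : IsDeck ζ σ γ) (U₁ : FN L) (u : FY K L W) (hu : u ≠ 0)
    (b : FYb L W) (hub : bcY K L W u = algebraMap (FN L) (FYb L W) U₁ * b ^ p) :
    ∃ (β : FY K L W) (a : K), β ≠ 0 ∧ a ≠ 0 ∧
      σ u = algebraMap K (FY K L W) a * u * β ^ p ∧
      algebraMap K Kbar a = (((γ b / b : FYb L W) : LaurentSeries Kbar).leadingCoeff) ^ p := by
  have hinj : Function.Injective (bcY K L W) := (bcY K L W).injective
  have hbu : bcY K L W u ≠ 0 := (map_ne_zero (bcY K L W)).2 hu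
  have hU : algebraMap (FN L) (FYb L W) U₁ ≠ 0 := by
    intro h0
    rw [h0, zero_mul] at hub
    exact hbu hub
  have hb : b ≠ 0 := by
    rintro rfl
    rw [zero_pow hp.ne', mul_zero] at hub
    exact hbu hub
  have hγb : γ b ≠ 0 := (map_ne_zero γ).2 hb
  set B : FYb L W := γ b / b with hB
  have hB0 : B ≠ 0 := div_ne_zero hγb hb
  -- `γ (bcY u) = bcY u * B ^ p`
  have hγu : γ (bcY K L W u) = bcY K L W u * B ^ p := by
    rw [hub, map_mul, map_pow, γ.commutes, hB, div_pow]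
    field_simp
  set z : FY K L W := σ u / u with hz
  have hbz : bcY K L W z = B ^ p := by
    rw [hz, map_div₀, hD.comm, hγu, mul_div_cancel_left₀ _ hbu]
  have hz0 : z ≠ 0 := by
    intro h0
    rw [h0, map_zero] at hbz
    exact pow_ne_zero p hB0 hbz.symm
  set c : Kbar := (B : LaurentSeries Kbar).leadingCoeff with hc
  have hc0 : c ≠ 0 := HahnSeries.leadingCoeff_ne_zero.2 (fun h0 => hB0 (Subtype.ext h0))
  set a : K := (z : LaurentSeries K).leadingCoeff with ha
  have ha0 : a ≠ 0 := HahnSeries.leadingCoeff_ne_zero.2 (fun h0 => hz0 (Subtype.ext h0))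
  have hac : algebraMap K Kbar a = c ^ p := by
    rw [ha, ← leadingCoeff_cK, hc, ← leadingCoeff_pow']
    exact congrArg (fun x : FYb L W => (x : LaurentSeries Kbar).leadingCoeff) hbz
  -- the normalised root
  set B' : FYb L W := B * algebraMap Kbar (FYb L W) c⁻¹ with hB'
  have hB'0 : B' ≠ 0 := mul_ne_zero hB0 ((map_ne_zero _).2 (inv_ne_zero hc0))
  have hB'coe : (B' : LaurentSeries Kbar) =
      (B : LaurentSeries Kbar) * algebraMap Kbar (LaurentSeries Kbar) c⁻¹ := rfl
  have hB'lc : (B' : LaurentSeries Kbar).leadingCoeff = 1 := by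
    rw [hB'coe, HahnSeries.leadingCoeff_mul, y3_leadingCoeff_const, ← hc, mul_inv_cancel₀ hc0]
  have hB'pow : B' ^ p = bcY K L W (z * algebraMap K (FY K L W) a⁻¹) := by
    rw [map_mul, hbz, y3_bcY_const, map_inv₀, hac, hB', mul_pow, ← map_pow, inv_pow]
  have hfixed : ∀ τ ∈ I, gS τ (B' : LaurentSeries Kbar) = B' := by
    intro τ hτ
    refine eq_of_pow_eq_of_lc hp ?_ hB'lc ?_
    · rw [leadingCoeff_gS, hB'lc, map_one]
    · have h1 : (B' : LaurentSeries Kbar) ^ p =
          cK K ((z * algebraMap K (FY K L W) a⁻¹ : FY K L W) : LaurentSeries K) :=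
        congrArg (fun x : FYb L W => (x : LaurentSeries Kbar)) hB'pow
      rw [← map_pow, h1, gS_cK hfix hτ]
  obtain ⟨β, hβ⟩ := exists_bcY_of_fixed hfix B' hfixed
  have hβ0 : β ≠ 0 := by
    rintro rfl
    rw [map_zero] at hβ
    exact hB'0 hβ.symm
  refine ⟨β, a, hβ0, ha0, ?_, hac⟩
  apply hinj
  rw [hD.comm, hγu, map_mul, map_mul, map_pow, hβ, y3_bcY_const, hac, hB', mul_pow, ← map_pow,
    inv_pow]
  have h1 : algebraMap Kbar (FYb L W) (c ^ p) * algebraMap Kbar (FYb L W) (c ^ p)⁻¹ = 1 := by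
    rw [← map_mul, mul_inv_cancel₀ (pow_ne_zero p hc0), map_one]
  calc bcY K L W u * B ^ p = bcY K L W u * B ^ p * (algebraMap Kbar (FYb L W) (c ^ p) *
        algebraMap Kbar (FYb L W) (c ^ p)⁻¹) := by rw [h1, mul_one]
    _ = _ := by ring

end Fermat.Agent.S44.X.Cover.Y3

end
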