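/-
S44 / X / COVER / Y3 (helper44), leaf Y3-G: not tres ramifiee ==> `p ∣ v(a)`.
-/
import Fermat.Agent.S44.X.Cover.Y3.Defs
import Fermat.Agent.S18.Defs

set_option autoImplicit false

noncomputable section

namespace Fermat.Agent.S44.X.Cover.Y3

open ModularCurve AlgebraicCurve Fermat.Agent.S24 Fermat.Agent.GAL
open Fermat.Agent.BAD.Bridge Fermat.Agent.S18

variable {K : Type} [Field K] [Algebra ℚ K] [Algebra K Kbar]

private theorem y3_val_eq_zpow {F : Type} [Field F] (B : ValuationSubring F) {a ϖ : F} {n : ℤ}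
    (hϖ : ϖ ≠ 0) (ha : a ≠ 0) (h1 : a / ϖ ^ n ∈ B) (h2 : (a / ϖ ^ n)⁻¹ ∈ B) :
    B.valuation a = B.valuation ϖ ^ n := by
  have hz : ϖ ^ n ≠ 0 := zpow_ne_zero n hϖ
  have hw : a / ϖ ^ n ≠ 0 := div_ne_zero ha hz
  have hv0 : B.valuation (a / ϖ ^ n) ≠ 0 := (Valuation.ne_zero_iff _).2 hw
  have l1 : B.valuation (a / ϖ ^ n) ≤ 1 := (B.valuation_le_one_iff _).2 h1
  have l2 : B.valuation (a / ϖ ^ n)⁻¹ ≤ 1 := (B.valuation_le_one_iff _).2 h2
  rw [map_inv₀] at l2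
  have l3 : 1 ≤ B.valuation (a / ϖ ^ n) := (inv_le_one₀ (zero_lt_iff.2 hv0)).1 l2
  have e1 : B.valuation (a / ϖ ^ n) = 1 := le_antisymm l1 l3
  have e2 : a = a / ϖ ^ n * ϖ ^ n := (div_mul_cancel₀ a hz).symm
  calc B.valuation a = B.valuation (a / ϖ ^ n * ϖ ^ n) := by rw [← e2]
    _ = B.valuation ϖ ^ n := by rw [map_mul, e1, one_mul, map_zpow₀]

theorem val_of_not_TR (A : ValuationSubring S44.Qb) (hfix : IsFix K (S44.Iner A))
    (A₀ : ValuationSubring K) (hA₀ : ∀ x : K, x ∈ A₀ ↔ algebraMap K Kbar x ∈ A) (p : ℕ)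
    (hU : IsUnif A₀ (p : K)) (H : Set S44.GQ) (hT : ¬ S44.TR A p H) (a : K) (ha : a ≠ 0)
    (α : Kbar) (hα : algebraMap K Kbar a = α ^ p) (hH : ∀ σ ∈ H, σ α = α) :
    ∃ e : ℤ, A₀.valuation a = A₀.valuation (p : K) ^ ((p : ℤ) * e) := by
  have hp0 : (p : K) ≠ 0 := by
    intro h0
    apply hU.inv_notMem
    rw [h0, inv_zero]
    exact A₀.zero_mem
  have hp0' : ((p : ℕ) : Kbar) ≠ 0 := by
    have h := (map_ne_zero (algebraMap K Kbar)).2 hp0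
    rwa [map_natCast] at h
  have ha' : algebraMap K Kbar a ≠ 0 := (map_ne_zero (algebraMap K Kbar)).2 ha
  obtain ⟨n, h1, h2⟩ := hU.exists_zpow a ha
  have hv₀ : A₀.valuation a = A₀.valuation (p : K) ^ n := y3_val_eq_zpow A₀ hp0 ha h1 h2
  by_cases hpn : (p : ℤ) ∣ n
  · obtain ⟨e, rfl⟩ := hpn
    exact ⟨e, hv₀⟩
  · exfalso
    apply hT
    have h1' : algebraMap K Kbar a / ((p : ℕ) : Kbar) ^ n ∈ A := by
      have := (hA₀ _).1 h1
      rwa [map_div₀, map_zpow₀, map_natCast] at this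
    have h2' : (algebraMap K Kbar a / ((p : ℕ) : Kbar) ^ n)⁻¹ ∈ A := by
      have := (hA₀ _).1 h2
      rwa [map_inv₀, map_div₀, map_zpow₀, map_natCast] at this
    refine ⟨α, n, hH, fun σ hσ => ?_, hpn, ?_⟩
    · rw [← hα]
      exact (hfix _).2 ⟨a, rfl⟩ σ hσ
    · rw [← hα]
      exact y3_val_eq_zpow A hp0' ha' h1' h2'

end Fermat.Agent.S44.X.Cover.Y3

end
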