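/-
S44, node X, block COVER, sub-block Y3 = DESCENT + TR (sub-architect helper44).  EXPORTS.

* `cdesc`    : `u ∈ F_Y`, `b ∈ F̄_Y` with `u = U₁ b ^ p`, and `σ u = a u β ^ p`, `a = α ^ p ∈ K`, `α` fixed
               by the elements of `I` which fix the class of `U₁`;
* `cdesc_TR` : if moreover the module is not "tres ramifiee", `v(a)` is divisible by `p`
               (exactly the inputs `hσu`, `ha` of `PL.pl_main'`, and `hub` of `Hor.horDiv`).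
-/
import Fermat.Agent.S44.X.Cover.Y3.Series
import Fermat.Agent.S44.X.Cover.Y3.Avg
import Fermat.Agent.S44.X.Cover.Y3.Comm
import Fermat.Agent.S44.X.Cover.Y3.Beta
import Fermat.Agent.S44.X.Cover.Y3.Alpha
import Fermat.Agent.S44.X.Cover.Y3.TR

set_option autoImplicit false

noncomputable section

namespace Fermat.Agent.S44.X.Cover.Y3

open ModularCurve AlgebraicCurve Fermat.Agent.S24 Fermat.Agent.GAL
open Fermat.Agent.BAD.Bridge Fermat.Agent.BAD.Descent Fermat.Agent.S18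

variable {K : Type} [Field K] [Algebra ℚ K] [Algebra K Kbar]

/-- The orbit of (the `q`-expansion of) an element of `FN L` is finite. -/
theorem finite_orbit_series (I : Subgroup S44.GQ) {L : ℕ} (a : FN L) :
    {v : LaurentSeries Kbar | ∃ τ ∈ I, gS τ (a : LaurentSeries Kbar) = v}.Finite := by
  have h := (BAD.Descent.finite_orbit L I a).image (fun v : FN L => (v : LaurentSeries Kbar))
  refine h.subset ?_
  rintro v ⟨τ, hτ, rfl⟩
  exact ⟨E.galF L τ a, ⟨τ, hτ, rfl⟩, E.coe_galF L τ a⟩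

/-- The normalised root of `τ U₁ / U₁` lies in `F̄_Y`. -/
theorem exists_root_FYb {I : Subgroup S44.GQ} {p L : ℕ} (hp : 0 < p) {U : FN L}
    {W : LaurentSeries Kbar} (hR : RootData I p L U W) {U₁ : FN L}
    (hlc : (U₁ : LaurentSeries Kbar).leadingCoeff = 1) (hG : Gal₁ I p L U U₁) {τ : S44.GQ}
    (hτ : τ ∈ I) :
    ∃ h ∈ FYb L W, IsOne h ∧ h ^ p * (U₁ : LaurentSeries Kbar) = gS τ (U₁ : LaurentSeries Kbar) := by
  obtain ⟨i, g, hg⟩ := hG τ hτ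
  have h1 : (W ^ i * (g : LaurentSeries Kbar)) ^ p * (U₁ : LaurentSeries Kbar) =
      gS τ (U₁ : LaurentSeries Kbar) := by
    rw [← E.coe_galF, hg, mul_pow, ← pow_mul, mul_comm i p, pow_mul, hR.pow]
    push_cast
    ring
  obtain ⟨c, hc, hone⟩ := exists_const_isOne hp hlc τ h1
  refine ⟨_, ?_, hone, ?_⟩
  · exact mul_mem ((FYb L W).algebraMap_mem c)
      (mul_mem (pow_mem (W_mem_FYb L W) i) (FN_le_FYb L W g.2))
  · rw [mul_pow, ← map_pow, hc, map_one, one_mul, h1]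

/-- The normalised root of `τ U₁ / U₁` lies in `FN L` if `τ` fixes the class of `U₁`. -/
theorem exists_root_FN {p L : ℕ} (hp : 0 < p) {U₁ : FN L}
    (hlc : (U₁ : LaurentSeries Kbar).leadingCoeff = 1) {τ : S44.GQ} {g : FN L}
    (hg : E.galF L τ U₁ = U₁ * g ^ p) :
    ∃ h : FN L, IsOne (h : LaurentSeries Kbar) ∧
      (h : LaurentSeries Kbar) ^ p * (U₁ : LaurentSeries Kbar) =
        gS τ (U₁ : LaurentSeries Kbar) := by
  have h1 : (g : LaurentSeries Kbar) ^ p * (U₁ : LaurentSeries Kbar) =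
      gS τ (U₁ : LaurentSeries Kbar) := by
    rw [← E.coe_galF, hg]
    push_cast
    ring
  obtain ⟨c, hc, hone⟩ := exists_const_isOne hp hlc τ h1
  refine ⟨algebraMap Kbar (FN L) c * g, hone, ?_⟩
  have : ((algebraMap Kbar (FN L) c * g : FN L) : LaurentSeries Kbar) =
      algebraMap Kbar (LaurentSeries Kbar) c * (g : LaurentSeries Kbar) := rfl
  rw [this, mul_pow, ← map_pow, hc, map_one, one_mul, h1]

/-- `cdesc` for a unit with leading coefficient one. -/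
theorem cdesc_nrm {I : Subgroup S44.GQ} (hfix : IsFix K I) {p L : ℕ} (hp : 0 < p) {U : FN L}
    {W : LaurentSeries Kbar} (hR : RootData I p L U W) {ζ : Kbar} (hζ : ζ ^ p = 1)
    {σ : FY K L W ≃ₐ[FK K L] FY K L W} {γ : FYb L W ≃ₐ[FN L] FYb L W} (hD : IsDeck ζ σ γ)
    (U₁ : FN L) (hlc : (U₁ : LaurentSeries Kbar).leadingCoeff = 1) (hG : Gal₁ I p L U U₁) :
    ∃ (u β : FY K L W) (b : FYb L W) (a : K) (α : Kbar), u ≠ 0 ∧ β ≠ 0 ∧ a ≠ 0 ∧
      IsOne (b : LaurentSeries Kbar) ∧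
      bcY K L W u = algebraMap (FN L) (FYb L W) U₁ * b ^ p ∧
      σ u = algebraMap K (FY K L W) a * u * β ^ p ∧
      algebraMap K Kbar a = α ^ p ∧
      ∀ τ ∈ I, (∃ g : FN L, E.galF L τ U₁ = U₁ * g ^ p) → τ α = α := by
  have hU₁s : (U₁ : LaurentSeries Kbar) ≠ 0 := by
    intro h0
    rw [h0] at hlc
    simp at hlc
  obtain ⟨g, hgF, hg1, hg⟩ := exists_avg hp I (FYb L W) hU₁s (finite_orbit_series I U₁)
    (fun τ hτ => exists_root_FYb hp hR hlc hG hτ)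
  set b : FYb L W := ⟨g, hgF⟩ with hb
  -- `U₁ b ^ p` is fixed by `I`
  have hfixed : ∀ τ ∈ I, gS τ ((algebraMap (FN L) (FYb L W) U₁ * b ^ p : FYb L W) :
      LaurentSeries Kbar) = (algebraMap (FN L) (FYb L W) U₁ * b ^ p : FYb L W) := by
    intro τ hτ
    obtain ⟨h, -, hh1, hh⟩ := exists_root_FYb hp hR hlc hG hτ
    have h2 := hg τ hτ h hh1 hh
    have hcoe : ((algebraMap (FN L) (FYb L W) U₁ * b ^ p : FYb L W) : LaurentSeries Kbar) =
        (U₁ : LaurentSeries Kbar) * g ^ p := by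
      push_cast
      rw [coe_algebraMap_FYb]
    rw [hcoe, map_mul, map_pow, ← hh]
    calc h ^ p * (U₁ : LaurentSeries Kbar) * gS τ g ^ p
        = (U₁ : LaurentSeries Kbar) * (gS τ g * h) ^ p := by ring
      _ = (U₁ : LaurentSeries Kbar) * g ^ p := by rw [h2]
  obtain ⟨u, hu⟩ := exists_bcY_of_fixed hfix _ hfixed
  have hb0 : b ≠ 0 := fun h0 => hg1.ne_zero (congrArg Subtype.val h0)
  have hU₁0 : U₁ ≠ 0 := fun h0 => hU₁s (by rw [h0]; rfl)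
  have hu0 : u ≠ 0 := by
    rintro rfl
    rw [map_zero] at hu
    exact mul_ne_zero ((map_ne_zero _).2 hU₁0) (pow_ne_zero p hb0) hu.symm
  obtain ⟨β, a, hβ, ha, hσ, haα⟩ := exists_beta hfix hp hD U₁ u hu0 b hu
  refine ⟨u, β, b, a, _, hu0, hβ, ha, hg1, hu, hσ, haα, ?_⟩
  rintro τ hτ ⟨g', hg'⟩
  obtain ⟨h, hh1, hh⟩ := exists_root_FN hp hlc hg'
  exact alpha_fixed (galComm hp hR hζ γ hD.root) b hg1 hτ h hh1 (hg τ hτ _ hh1 hh)

/-- **DESCENT** (step (Y3)). -/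
theorem cdesc {I : Subgroup S44.GQ} (hfix : IsFix K I) {p L : ℕ} (hp : 0 < p) {U : FN L}
    {W : LaurentSeries Kbar} (hR : RootData I p L U W) {ζ : Kbar} (hζ : ζ ^ p = 1)
    {σ : FY K L W ≃ₐ[FK K L] FY K L W} {γ : FYb L W ≃ₐ[FN L] FYb L W} (hD : IsDeck ζ σ γ)
    (U₁ : FN L) (hU₁ : U₁ ≠ 0) (hG : Gal₁ I p L U U₁) :
    ∃ (u β : FY K L W) (b : FYb L W) (a : K) (α : Kbar), u ≠ 0 ∧ β ≠ 0 ∧ a ≠ 0 ∧ b ≠ 0 ∧
      bcY K L W u = algebraMap (FN L) (FYb L W) U₁ * b ^ p ∧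
      σ u = algebraMap K (FY K L W) a * u * β ^ p ∧
      algebraMap K Kbar a = α ^ p ∧
      ∀ τ ∈ I, (∃ g : FN L, E.galF L τ U₁ = U₁ * g ^ p) → τ α = α := by
  have hc : lc U₁ ≠ 0 := lc_ne_zero hU₁
  obtain ⟨d, hd⟩ := IsAlgClosed.exists_pow_nat_eq (lc U₁)⁻¹ hp
  have hd0 : d ≠ 0 := by
    rintro rfl
    rw [zero_pow hp.ne'] at hd
    exact inv_ne_zero hc hd.symm
  set D : FN L := algebraMap Kbar (FN L) d with hD'
  have hD0 : D ≠ 0 := (map_ne_zero _).2 hd0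
  have hlc : ((U₁ * D ^ p : FN L) : LaurentSeries Kbar).leadingCoeff = 1 := by
    have : lc (U₁ * D ^ p) = 1 := by
      rw [lc_mul, lc_pow, hD', lc_algebraMap, hd, mul_inv_cancel₀ hc]
    exact this
  have hgalD : ∀ τ : S44.GQ, E.galF L τ D ≠ 0 := fun τ => (map_ne_zero _).2 hD0
  have hG' : Gal₁ I p L U (U₁ * D ^ p) := by
    intro τ hτ
    obtain ⟨i, g, hg⟩ := hG τ hτ
    refine ⟨i, g * (E.galF L τ D / D), ?_⟩
    rw [map_mul, map_pow, hg, mul_pow, div_pow]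
    field_simp
  obtain ⟨u, β, b, a, α, hu, hβ, ha, hb, hub, hσ, haα, hα⟩ :=
    cdesc_nrm hfix hp hR hζ hD (U₁ * D ^ p) hlc hG'
  refine ⟨u, β, algebraMap (FN L) (FYb L W) D * b, a, α, hu, hβ, ha, ?_, ?_, hσ, haα, ?_⟩
  · exact mul_ne_zero ((map_ne_zero _).2 hD0) (fun h0 => hb.ne_zero (congrArg Subtype.val h0))
  · rw [hub, map_mul, map_pow]
    ring
  · rintro τ hτ ⟨g, hg⟩
    refine hα τ hτ ⟨g * (E.galF L τ D / D), ?_⟩
    rw [map_mul, map_pow, hg, mul_pow, div_pow]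
    field_simp

/-- **DESCENT + TR**: the inputs `hσu`, `ha` of `PL.pl_main'` and `hub` of `Hor.horDiv`. -/
theorem cdesc_TR (A : ValuationSubring S44.Qb) (hfix : IsFix K (S44.Iner A))
    (A₀ : ValuationSubring K) (hA₀ : ∀ x : K, x ∈ A₀ ↔ algebraMap K Kbar x ∈ A) {p L : ℕ}
    (hp : 0 < p) (hU : IsUnif A₀ (p : K)) {U : FN L} {W : LaurentSeries Kbar}
    (hR : RootData (S44.Iner A) p L U W) {ζ : Kbar} (hζ : ζ ^ p = 1)
    {σ : FY K L W ≃ₐ[FK K L] FY K L W} {γ : FYb L W ≃ₐ[FN L] FYb L W} (hD : IsDeck ζ σ γ)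
    (U₁ : FN L) (hU₁ : U₁ ≠ 0) (hG : Gal₁ (S44.Iner A) p L U U₁) (H : Set S44.GQ)
    (hH : ∀ τ ∈ H, τ ∈ S44.Iner A ∧ ∃ g : FN L, E.galF L τ U₁ = U₁ * g ^ p)
    (hT : ¬ S44.TR A p H) :
    ∃ (u β : FY K L W) (b : FYb L W) (a : K) (e : ℤ), u ≠ 0 ∧ β ≠ 0 ∧ b ≠ 0 ∧
      bcY K L W u = algebraMap (FN L) (FYb L W) U₁ * b ^ p ∧
      σ u = algebraMap K (FY K L W) a * u * β ^ p ∧
      A₀.valuation a = A₀.valuation (p : K) ^ ((p : ℤ) * e) := by
  obtain ⟨u, β, b, a, α, hu, hβ, ha, hb, hub, hσ, haα, hα⟩ := cdesc hfix hp hR hζ hD U₁ hU₁ hG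
  obtain ⟨e, he⟩ := val_of_not_TR A hfix A₀ hA₀ p hU H hT a ha α haα
    (fun τ hτ => hα τ (hH τ hτ).1 (hH τ hτ).2)
  exact ⟨u, β, b, a, e, hu, hβ, hb, hub, hσ, he⟩

end Fermat.Agent.S44.X.Cover.Y3

end
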