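/-
S44, node X, block COVER, sub-block Y3 (helper44): `nodeDescU : NodeDescU` (statement of
`Cover/Nodes.lean`), from `Y3.cdesc`.
-/
import Fermat.Agent.S44.X.Cover.Nodes
import Fermat.Agent.S44.X.Cover.Y3.Main

set_option autoImplicit false

namespace Fermat.Agent.S44.X.Cover

theorem nodeDescU : NodeDescU := by
  intro K _ _ _ I p L _ hp hfix U W hR ζ hζ σ γ hD U₁ hU₁ _ hG
  obtain ⟨u, β, b, a, α, hu, hβ, -, hb, hub, hσ, haα, hα⟩ :=
    Y3.cdesc hfix hp.pos hR hζ.pow_eq_one hD U₁ hU₁ hG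
  exact ⟨u, β, a, b, α, hu, hβ, hb, hub, hσ, haα.symm, hα⟩

end Fermat.Agent.S44.X.Cover
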